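import Mathlib
import Fermat.Agent.LT.T5.Spec
import Fermat.Agent.LT.H415.AutVal

/-!
# Row LT, tower T5, asset AUT-UNIQUE (helper415): every `AdelicAut` is the canonical one

OFF-MAIN.  Vocabulary of `LT/T5/Spec.lean` (v3, helper32@c970d419b) and `LT/H556/A0.lean`.
For an ARBITRARY `s : T5.AdelicAut K`:

* `adelicAut_ext415`      : `s.σ = s'.σ → s.σA = s'.σA` (the continuous extension is unique);
* `sigmaA_iterate415`     : `IsCyclicOfDegree s l k → s.σA^[l] = id`, `onG_iterate415` on `GL₂`;
* `valued_onG415`         : `PlaceRel s v v' → Valued.v (finComp v' (s.onG g) i j)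
                              = Valued.v (finComp v g i j)`;
* `isIntegralAt_onG415`, `inIwahori_onG415` : integrality / Iwahori at `v` ↔ at `σ v`;
* `finComp_onG_congr415`, `infComp_onG_congr415`, `agreeOutside_onG415` : locality;
* `orbit_closed415`       : the set `{o j | j < l}` of `T5.RegularOfIwahori` is `σ`-stable.
-/

set_option autoImplicit false
set_option linter.unusedSectionVars false

open IsDedekindDomain NumberField

noncomputable section

namespace Fermat.Agent.LT.T5.H415

open Fermat.Agent.LT.H556.A0 Fermat.Agent.LT.T5 Fermat.Agent.LT.H415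

variable {K : Type} [Field K] [NumberField K]

/-- The ring homomorphism underlying `s.σA`. -/
abbrev hom415 (s : AdelicAut K) : Adl K →+* Adl K := (s.σA : Adl K →+* Adl K)

theorem continuous_hom415 (s : AdelicAut K) : Continuous (hom415 s) := s.continuous_σA

theorem injective_hom415 (s : AdelicAut K) : Function.Injective (hom415 s) := s.σA.injective

theorem compat_hom415 (s : AdelicAut K) (x : K) :
    hom415 s (algebraMap K (Adl K) x) = algebraMap K (Adl K) (s.σ x) := s.compat x

/-- **The continuous extension of `σ` to the adeles is unique.** -/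
theorem adelicAut_ext415 (s s' : AdelicAut K) (h : s.σ = s'.σ) : s.σA = s'.σA :=
  adele_aut_unique415 s.σA s'.σA s.continuous_symm s'.continuous_σA
    (fun x => by rw [s.compat, s'.compat, h])

/-- **`σ^l = 1` on `K` implies `σ^l = 1` on the adeles.** -/
theorem sigmaA_iterate415 (s : AdelicAut K) (l : ℕ) (k : Subfield K)
    (hc : IsCyclicOfDegree s l k) (a : Adl K) : (⇑s.σA)^[l] a = a :=
  adele_aut_iterate415 s.σ (hom415 s) (continuous_hom415 s) (injective_hom415 s)
    (compat_hom415 s) l hc.pow_eq a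

theorem onG_coe415 (s : AdelicAut K) (g : G K) (i j : Fin 2) :
    (s.onG g : Matrix (Fin 2) (Fin 2) (Adl K)) i j
      = s.σA ((g : Matrix (Fin 2) (Fin 2) (Adl K)) i j) := rfl

theorem onG_iterate_coe415 (s : AdelicAut K) (n : ℕ) (g : G K) (i j : Fin 2) :
    (((⇑s.onG)^[n] g : G K) : Matrix (Fin 2) (Fin 2) (Adl K)) i j
      = (⇑s.σA)^[n] ((g : Matrix (Fin 2) (Fin 2) (Adl K)) i j) := by
  induction n with
  | zero => rfl
  | succ n ih =>
    rw [Function.iterate_succ_apply', Function.iterate_succ_apply', onG_coe415, ih]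

/-- **`σ^l = 1` on `GL₂(𝔸_K)`.** -/
theorem onG_iterate415 (s : AdelicAut K) (l : ℕ) (k : Subfield K)
    (hc : IsCyclicOfDegree s l k) (g : G K) : (⇑s.onG)^[l] g = g := by
  apply Units.ext
  ext i j
  have h := onG_iterate_coe415 s l g i j
  rw [sigmaA_iterate415 s l k hc] at h
  exact h

theorem placeRel_iff415 (s : AdelicAut K) (v v' : HeightOneSpectrum (𝓞 K)) :
    PlaceRel s v v' ↔ FinRel K s.σ v v' := Iff.rfl

theorem finComp_onG415 (s : AdelicAut K) (v' : HeightOneSpectrum (𝓞 K)) (g : G K)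
    (i j : Fin 2) :
    finComp v' (s.onG g) i j = (s.σA ((g : Matrix (Fin 2) (Fin 2) (Adl K)) i j)).2 v' := rfl

/-- **The valuations of the entries at `σ v` of `σ g` are those of `g` at `v`.** -/
theorem valued_onG415 (s : AdelicAut K) (v v' : HeightOneSpectrum (𝓞 K))
    (h : PlaceRel s v v') (g : G K) (i j : Fin 2) :
    Valued.v (finComp v' (s.onG g) i j) = Valued.v (finComp v g i j) :=
  valued_tau_fin415 s.σ (hom415 s) (continuous_hom415 s) (compat_hom415 s)
    (injective_hom415 s) v v' h _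

theorem isIntegralAt_onG415 (s : AdelicAut K) (v v' : HeightOneSpectrum (𝓞 K))
    (h : PlaceRel s v v') (g : G K) : IsIntegralAt v' (s.onG g) ↔ IsIntegralAt v g := by
  unfold IsIntegralAt
  simp only [HeightOneSpectrum.mem_adicCompletionIntegers, valued_onG415 s v v' h]

theorem inIwahori_onG415 (s : AdelicAut K) (v v' : HeightOneSpectrum (𝓞 K))
    (h : PlaceRel s v v') (g : G K) : InIwahori v' (s.onG g) ↔ InIwahori v g := by
  unfold InIwahori
  rw [isIntegralAt_onG415 s v v' h, ← map_inv, isIntegralAt_onG415 s v v' h,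
    valued_onG415 s v v' h]

/-- Locality at the finite places. -/
theorem finComp_onG_congr415 (s : AdelicAut K) (v v' : HeightOneSpectrum (𝓞 K))
    (h : PlaceRel s v v') (g g' : G K) (hg : finComp v g = finComp v g') :
    finComp v' (s.onG g) = finComp v' (s.onG g') := by
  funext i j
  exact tau_fin_congr415 s.σ (hom415 s) (continuous_hom415 s) (compat_hom415 s)
    (injective_hom415 s) v v' h _ _ (congrFun (congrFun hg i) j)

theorem infComp_eq_iff415 (w : InfinitePlace K) (g g' : G K) :
    infComp w g = infComp w g' ↔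
      ∀ i j, ((g : Matrix (Fin 2) (Fin 2) (Adl K)) i j).1 w
        = ((g' : Matrix (Fin 2) (Fin 2) (Adl K)) i j).1 w := by
  constructor
  · intro h i j
    have := congrFun (congrFun h i) j
    exact (InfinitePlace.Completion.extensionEmbedding w).injective this
  · intro h
    ext i j
    exact congrArg (InfinitePlace.Completion.extensionEmbedding w) (h i j)

/-- Locality at the infinite places. -/
theorem infComp_onG_congr415 (s : AdelicAut K) (w : InfinitePlace K) (g g' : G K)
    (hg : infComp w g = infComp w g') :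
    infComp (infImage K s.σ w) (s.onG g) = infComp (infImage K s.σ w) (s.onG g') := by
  rw [infComp_eq_iff415] at hg ⊢
  intro i j
  exact tau_inf_congr415 s.σ (hom415 s) (continuous_hom415 s) (compat_hom415 s)
    (injective_hom415 s) w _ _ (hg i j)

/-- **`σ` preserves agreement outside a `σ`-stable set of finite places.** -/
theorem agreeOutside_onG415 (s : AdelicAut K) (O : Set (HeightOneSpectrum (𝓞 K)))
    (hO : ∀ v v' : HeightOneSpectrum (𝓞 K), PlaceRel s v v' → v' ∉ O → v ∉ O)
    (g g' : G K) (h : AgreeOutside O g g') : AgreeOutside O (s.onG g) (s.onG g') := by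
  refine ⟨fun w' => ?_, fun v' hv' => ?_⟩
  · obtain ⟨w, rfl⟩ := infImage_surjective415 s.σ w'
    exact infComp_onG_congr415 s w g g' (h.1 w)
  · obtain ⟨v, hv⟩ := finRel_exists_preimage415 s.σ v'
    exact finComp_onG_congr415 s v v' hv g g' (h.2 v (hO v v' hv hv'))

/-! ## The orbit of `T5.RegularOfIwahori` -/

theorem finRel_pow415 (σ : K ≃+* K) (o : ℕ → HeightOneSpectrum (𝓞 K))
    (ho : ∀ j : ℕ, FinRel K σ (o j) (o (j + 1))) (n : ℕ) : FinRel K (σ ^ n) (o 0) (o n) := by
  induction n with
  | zero =>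
    rw [pow_zero]
    exact finRel_refl415 (o 0)
  | succ n ih =>
    unfold FinRel at ih ⊢
    rw [ho n, ih]
    ext y
    simp only [Ideal.mem_map_of_equiv]
    have hmul : ∀ z : 𝓞 K, NumberField.RingOfIntegers.mapRingEquiv σ
        (NumberField.RingOfIntegers.mapRingEquiv (σ ^ n) z)
          = NumberField.RingOfIntegers.mapRingEquiv (σ ^ (n + 1)) z := by
      intro z
      ext
      rw [NumberField.RingOfIntegers.mapRingEquiv_apply,
        NumberField.RingOfIntegers.mapRingEquiv_apply,
        NumberField.RingOfIntegers.mapRingEquiv_apply, pow_succ']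
      rfl
    constructor
    · rintro ⟨x, ⟨z, hz, rfl⟩, rfl⟩
      exact ⟨z, hz, (hmul z).symm⟩
    · rintro ⟨z, hz, rfl⟩
      exact ⟨NumberField.RingOfIntegers.mapRingEquiv (σ ^ n) z, ⟨z, hz, rfl⟩, hmul z⟩

/-- `o l = o 0`. -/
theorem orbit_period415 (s : AdelicAut K) (l : ℕ) (k : Subfield K)
    (hc : IsCyclicOfDegree s l k) (o : ℕ → HeightOneSpectrum (𝓞 K))
    (ho : ∀ j : ℕ, PlaceRel s (o j) (o (j + 1))) : o l = o 0 := by
  have h1 := finRel_pow415 s.σ o ho l
  have h2 : s.σ ^ l = RingEquiv.refl K := by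
    ext x
    exact hc.pow_eq x
  rw [h2] at h1
  exact finRel_unique415 (RingEquiv.refl K) (o 0) (o l) (o 0) h1 (finRel_refl415 (o 0))

/-- **The orbit `{o j | j < l}` is stable under `σ⁻¹`** (the hypothesis of
`agreeOutside_onG415`). -/
theorem orbit_closed415 (s : AdelicAut K) (l : ℕ) (k : Subfield K)
    (hc : IsCyclicOfDegree s l k) (o : ℕ → HeightOneSpectrum (𝓞 K))
    (ho : ∀ j : ℕ, PlaceRel s (o j) (o (j + 1)))
    (v v' : HeightOneSpectrum (𝓞 K)) (hv : PlaceRel s v v')
    (hv' : v' ∉ {u : HeightOneSpectrum (𝓞 K) | ∃ j < l, u = o j}) :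
    v ∉ {u : HeightOneSpectrum (𝓞 K) | ∃ j < l, u = o j} := by
  rintro ⟨j, hj, rfl⟩
  apply hv'
  have h1 : v' = o (j + 1) := finRel_unique415 s.σ (o j) v' (o (j + 1)) hv (ho j)
  rcases Nat.lt_or_ge (j + 1) l with h | h
  · exact ⟨j + 1, h, h1⟩
  · have h2 : j + 1 = l := le_antisymm hj h
    refine ⟨0, hc.pos, ?_⟩
    rw [h1, h2]
    exact orbit_period415 s l k hc o ho

/-- The orbit is also stable under `σ`. -/
theorem orbit_closed_fwd415 (s : AdelicAut K) (l : ℕ) (k : Subfield K)
    (hc : IsCyclicOfDegree s l k) (o : ℕ → HeightOneSpectrum (𝓞 K))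
    (ho : ∀ j : ℕ, PlaceRel s (o j) (o (j + 1)))
    (v v' : HeightOneSpectrum (𝓞 K)) (hv : PlaceRel s v v')
    (hvO : v ∉ {u : HeightOneSpectrum (𝓞 K) | ∃ j < l, u = o j}) :
    v' ∉ {u : HeightOneSpectrum (𝓞 K) | ∃ j < l, u = o j} := by
  rintro ⟨j, hj, rfl⟩
  apply hvO
  rcases Nat.eq_zero_or_pos j with h0 | hpos
  · subst h0
    refine ⟨l - 1, Nat.sub_lt hc.pos Nat.one_pos, ?_⟩
    have h1 : PlaceRel s (o (l - 1)) (o 0) := by
      have := ho (l - 1)
      rw [Nat.sub_add_cancel hc.pos, orbit_period415 s l k hc o ho] at this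
      exact this
    exact finRel_inj415 s.σ v (o (l - 1)) (o 0) hv h1
  · refine ⟨j - 1, lt_of_le_of_lt (Nat.sub_le j 1) hj, ?_⟩
    have h1 : PlaceRel s (o (j - 1)) (o j) := by
      have := ho (j - 1)
      rw [Nat.sub_add_cancel hpos] at this
      exact this
    exact finRel_inj415 s.σ v (o (j - 1)) (o j) hv h1

end Fermat.Agent.LT.T5.H415
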